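import Mathlib

/-!
# An Euler-characteristic bound for spaces of homomorphisms (helper25, S21 package B')

`G` a group generated by `s` and `u`, `Γ ≤ G` of finite index, `X = G ⧸ Γ`, `V = X → ℂ`.
For a homomorphism `φ : Γ → ℂ` we build the induced cocycle `cocyc φ : G → V` and prove

  `dim P + dim V^s + dim V^u + dim V^t ≤ |X| + 2`,  `t = s⁻¹ u`,

for every space `P` of homomorphisms whose cocycles vanish on `s ^ 2`, `u ^ 3` and `t ^ h`.
-/

set_option autoImplicit false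

namespace Fermat.Agent.S21.H25

open Module

section Abstract

variable {G : Type*} [Group G] (Γ : Subgroup G)

/-- The transition element `r(g x)⁻¹ g r(x) ∈ Γ` for the section `r = Quotient.out`. -/
noncomputable def kap (g : G) (x : G ⧸ Γ) : Γ :=
  ⟨(Quotient.out (g • x))⁻¹ * g * Quotient.out x, by
    have h : ((Quotient.out (g • x) : G) : G ⧸ Γ) = ((g * Quotient.out x : G) : G ⧸ Γ) := by
      rw [QuotientGroup.out_eq', ← smul_eq_mul, ← MulAction.Quotient.smul_mk,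
        QuotientGroup.out_eq']
    rw [mul_assoc]
    exact QuotientGroup.eq.mp h⟩

variable {Γ}

lemma kap_mul (g h : G) (x : G ⧸ Γ) : kap Γ (g * h) x = kap Γ g (h • x) * kap Γ h x := by
  apply Subtype.ext
  simp only [kap, Subgroup.coe_mul, mul_smul]
  group

lemma kap_one (x : G ⧸ Γ) : kap Γ 1 x = 1 := by
  apply Subtype.ext
  simp [kap]

/-- The cocycle `G → (X → ℂ)` induced by a homomorphism `φ : Γ → ℂ`. -/
noncomputable def cocyc (φ : Additive Γ →+ ℂ) (g : G) : (G ⧸ Γ) → ℂ :=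
  fun x => φ (Additive.ofMul (kap Γ g x))

/-- Precomposition with the action of `g`. -/
noncomputable def pre (g : G) : ((G ⧸ Γ) → ℂ) →ₗ[ℂ] ((G ⧸ Γ) → ℂ) :=
  LinearMap.funLeft ℂ ℂ (fun x => g • x)

@[simp] lemma pre_apply (g : G) (v : (G ⧸ Γ) → ℂ) (x : G ⧸ Γ) :
    pre (Γ := Γ) g v x = v (g • x) := rfl

lemma pre_mul (g h : G) (v : (G ⧸ Γ) → ℂ) :
    pre (Γ := Γ) (g * h) v = pre h (pre g v) := by
  funext x; simp [mul_smul]

lemma pre_one (v : (G ⧸ Γ) → ℂ) : pre (Γ := Γ) 1 v = v := by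
  funext x; simp

lemma pre_injective (g : G) : Function.Injective (pre (Γ := Γ) g) := by
  intro v w h
  have := congrArg (pre (Γ := Γ) g⁻¹) h
  rwa [← pre_mul, ← pre_mul, mul_inv_cancel, pre_one, pre_one] at this

lemma cocyc_mul (φ : Additive Γ →+ ℂ) (g h : G) :
    cocyc φ (g * h) = pre h (cocyc φ g) + cocyc φ h := by
  funext x
  simp only [cocyc, kap_mul, ofMul_mul, map_add, Pi.add_apply, pre_apply]

lemma cocyc_one (φ : Additive Γ →+ ℂ) : cocyc φ (1 : G) = 0 := by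
  funext x
  simp [cocyc, kap_one]

lemma cocyc_inv (φ : Additive Γ →+ ℂ) (g : G) :
    cocyc φ g⁻¹ = - pre g⁻¹ (cocyc φ g) := by
  have h := cocyc_mul φ g g⁻¹
  rw [mul_inv_cancel, cocyc_one] at h
  exact eq_neg_of_add_eq_zero_right h.symm

/-- `cocyc · g` as a linear map. -/
noncomputable def cocycL (g : G) : (Additive Γ →+ ℂ) →ₗ[ℂ] ((G ⧸ Γ) → ℂ) where
  toFun φ := cocyc φ g
  map_add' φ ψ := by funext x; simp [cocyc]
  map_smul' c φ := by funext x; simp [cocyc]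

@[simp] lemma cocycL_apply (g : G) (φ : Additive Γ →+ ℂ) : cocycL g φ = cocyc φ g := rfl

lemma cocyc_pow (φ : Additive Γ →+ ℂ) (g : G) (n : ℕ) :
    cocyc φ (g ^ n) = ∑ j ∈ Finset.range n, ((pre (Γ := Γ) g) ^ j) (cocyc φ g) := by
  induction n with
  | zero => simp [cocyc_one]
  | succ n ih =>
    rw [pow_succ, cocyc_mul, ih, Finset.sum_range_succ', map_sum]
    simp [pow_succ', Module.End.mul_apply]

end Abstract

/-! ### A section of `f - 1` on the kernel of the norm -/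

section Section

variable {V : Type*} [AddCommGroup V] [Module ℂ V]

lemma sum_mul_sub (f : V →ₗ[ℂ] V) (w : V) (h : ℕ) :
    ∑ j ∈ Finset.range h, (j : ℂ) • ((f ^ (j + 1)) w - (f ^ j) w)
      = (h : ℂ) • (f ^ h) w - ∑ j ∈ Finset.range h, (f ^ (j + 1)) w := by
  induction h with
  | zero => simp
  | succ h ih =>
    rw [Finset.sum_range_succ, ih, Finset.sum_range_succ]
    push_cast
    module

/-- The section `(1/h) ∑_{j<h} j f^j`. -/
noncomputable def sec (f : V →ₗ[ℂ] V) (h : ℕ) : V →ₗ[ℂ] V :=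
  (h : ℂ)⁻¹ • ∑ j ∈ Finset.range h, (j : ℂ) • f ^ j

lemma sub_one_sec (f : V →ₗ[ℂ] V) (h : ℕ) (hh : 0 < h) (w : V)
    (hw : ∑ j ∈ Finset.range h, (f ^ j) w = 0) :
    f (sec f h w) - sec f h w = w := by
  have hh' : (h : ℂ) ≠ 0 := by exact_mod_cast hh.ne'
  have h1 : ∑ j ∈ Finset.range h, (f ^ (j + 1)) w = 0 := by
    have := congrArg f hw
    rw [map_sum, map_zero] at this
    rw [← this]
    refine Finset.sum_congr rfl fun j _ => ?_
    rw [pow_succ', Module.End.mul_apply]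
  have h2 : (f ^ h) w = w := by
    have h3 : ∑ j ∈ Finset.range (h + 1), (f ^ j) w = (f ^ h) w := by
      rw [Finset.sum_range_succ, hw, zero_add]
    have h4 : ∑ j ∈ Finset.range (h + 1), (f ^ j) w = w := by
      rw [Finset.sum_range_succ', h1, zero_add, pow_zero, Module.End.one_apply]
    rw [← h3, h4]
  have key := sum_mul_sub f w h
  rw [h1, h2, sub_zero] at key
  have e1 : f (sec f h w) - sec f h w
      = (h : ℂ)⁻¹ • ∑ j ∈ Finset.range h, (j : ℂ) • ((f ^ (j + 1)) w - (f ^ j) w) := by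
    simp only [sec, LinearMap.smul_apply, LinearMap.sum_apply, map_smul, map_sum, smul_sub,
      Finset.sum_sub_distrib, pow_succ', Module.End.mul_apply]
  rw [e1, key, smul_smul, inv_mul_cancel₀ hh', one_smul]

end Section

section Count

variable {G : Type*} [Group G] {Γ : Subgroup G}

/-- Key rigidity: a cocycle which is a coboundary on generators comes from `φ = 0`. -/
lemma eq_zero_of_cocyc_add (s u : G) (hgen : Subgroup.closure {s, u} = ⊤)
    (φ : Additive Γ →+ ℂ) (v : (G ⧸ Γ) → ℂ)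
    (h1 : cocyc φ s + (pre s v - v) = 0) (h2 : cocyc φ u + (pre u v - v) = 0) :
    φ = 0 ∧ ∀ g : G, pre g v = v := by
  have hall : ∀ g : G, cocyc φ g + (pre g v - v) = 0 := by
    intro g
    have hg : g ∈ Subgroup.closure {s, u} := by rw [hgen]; trivial
    induction hg using Subgroup.closure_induction with
    | mem x hx =>
      rcases hx with rfl | rfl
      · exact h1
      · exact h2
    | one => rw [cocyc_one, pre_one]; simp
    | mul x y _ _ hx hy =>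
      rw [cocyc_mul, pre_mul]
      have : pre y (cocyc φ x) + cocyc φ y + (pre y (pre x v) - v)
          = pre y (cocyc φ x + (pre x v - v)) + (cocyc φ y + (pre y v - v)) := by
        simp only [map_add, map_sub]; abel
      rw [this, hx, hy, map_zero, add_zero]
    | inv x _ hx =>
      apply pre_injective x
      rw [map_zero, map_add, map_sub, cocyc_inv, map_neg, ← pre_mul, ← pre_mul, inv_mul_cancel,
        pre_one, pre_one]
      have : -cocyc φ x + (v - pre x v) = -(cocyc φ x + (pre x v - v)) := by abel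
      rw [this, hx, neg_zero]
  have hφ : φ = 0 := by
    refine AddMonoidHom.ext fun γ => ?_
    obtain ⟨γ, rfl⟩ := Additive.ofMul.surjective γ
    set x₀ : G ⧸ Γ := ((1 : G) : G ⧸ Γ) with hx₀
    have hmem : (Quotient.out x₀ : G) ∈ Γ := by
      have h : ((1 : G) : G ⧸ Γ) = ((Quotient.out x₀ : G) : G ⧸ Γ) := by
        rw [QuotientGroup.out_eq']
      simpa using QuotientGroup.eq.mp h
    have hfix : (γ : G) • x₀ = x₀ := by
      rw [hx₀, MulAction.Quotient.smul_mk, smul_eq_mul, mul_one]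
      exact QuotientGroup.eq.mpr (by simp)
    have h0 := congrFun (hall (γ : G)) x₀
    simp only [Pi.add_apply, Pi.sub_apply, pre_apply, hfix, sub_self, add_zero,
      Pi.zero_apply] at h0
    have hk : kap Γ (γ : G) x₀ = (⟨Quotient.out x₀, hmem⟩ : Γ)⁻¹ * γ * ⟨Quotient.out x₀, hmem⟩ := by
      apply Subtype.ext
      simp [kap, hfix]
    rw [cocyc, hk] at h0
    simpa using h0
  refine ⟨hφ, fun g => ?_⟩
  have h := hall g
  rw [hφ] at h
  have hz : cocyc (0 : Additive Γ →+ ℂ) g = 0 := by funext x; simp [cocyc]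
  rw [hz, zero_add] at h
  exact sub_eq_zero.mp h

/-- Functions invariant under `g`. -/
noncomputable def fixSub (g : G) : Submodule ℂ ((G ⧸ Γ) → ℂ) :=
  LinearMap.ker (pre (Γ := Γ) g - 1)

lemma mem_fixSub {g : G} {v : (G ⧸ Γ) → ℂ} : v ∈ fixSub g ↔ pre g v = v := by
  simp [fixSub, sub_eq_zero]

lemma cocyc_add (φ ψ : Additive Γ →+ ℂ) (g : G) : cocyc (φ + ψ) g = cocyc φ g + cocyc ψ g :=
  (cocycL g).map_add φ ψ

lemma cocyc_smul (c : ℂ) (φ : Additive Γ →+ ℂ) (g : G) : cocyc (c • φ) g = c • cocyc φ g :=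
  (cocycL g).map_smul c φ

lemma cocyc_zero (g : G) : cocyc (0 : Additive Γ →+ ℂ) g = 0 :=
  (cocycL g).map_zero

/-- `pre g w - w` lies in the span of the two generator ranges. -/
lemma pre_sub_mem (s u : G) (hgen : Subgroup.closure {s, u} = ⊤) (g : G) :
    ∀ w : (G ⧸ Γ) → ℂ, pre g w - w ∈
      LinearMap.range (pre (Γ := Γ) s - 1) ⊔ LinearMap.range (pre (Γ := Γ) u - 1) := by
  have hg : g ∈ Subgroup.closure {s, u} := by rw [hgen]; trivial
  induction hg using Subgroup.closure_induction with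
  | mem x hx =>
    intro w
    rcases hx with rfl | rfl
    · exact Submodule.mem_sup_left ⟨w, rfl⟩
    · exact Submodule.mem_sup_right ⟨w, rfl⟩
  | one => intro w; rw [pre_one, sub_self]; exact Submodule.zero_mem _
  | mul x y _ _ hx hy =>
    intro w
    have : pre (Γ := Γ) (x * y) w - w = (pre y (pre x w) - pre x w) + (pre x w - w) := by
      rw [pre_mul]; abel
    rw [this]
    exact Submodule.add_mem _ (hy _) (hx _)
  | inv x _ hx =>
    intro w
    have : pre (Γ := Γ) x⁻¹ w - w = -(pre x (pre x⁻¹ w) - pre x⁻¹ w) := by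
      rw [← pre_mul, inv_mul_cancel, pre_one]; abel
    rw [this]
    exact Submodule.neg_mem _ (hx _)

lemma mem_sup_of_sum_eq_zero [Fintype (G ⧸ Γ)] (s u : G) (hgen : Subgroup.closure {s, u} = ⊤)
    (v : (G ⧸ Γ) → ℂ) (hv : ∑ x, v x = 0) :
    v ∈ LinearMap.range (pre (Γ := Γ) s - 1) ⊔ LinearMap.range (pre (Γ := Γ) u - 1) := by
  classical
  set x₀ : G ⧸ Γ := ((1 : G) : G ⧸ Γ) with hx₀
  have hv' : v = ∑ x, v x • (Pi.single x (1 : ℂ) - Pi.single x₀ (1 : ℂ)) := by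
    funext y
    simp only [Finset.sum_apply, Pi.smul_apply, Pi.sub_apply, Pi.single_apply, smul_eq_mul,
      mul_sub, Finset.sum_sub_distrib, mul_ite, mul_one, mul_zero, Finset.sum_ite_eq,
      Finset.mem_univ, if_true]
    by_cases hy : y = x₀
    · simp [hy, hv]
    · simp [hy]
  rw [hv']
  refine Submodule.sum_mem _ fun x _ => Submodule.smul_mem _ _ ?_
  have hx : Pi.single x (1 : ℂ) = pre (Γ := Γ) (Quotient.out x)⁻¹ (Pi.single x₀ (1 : ℂ)) := by
    funext y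
    simp only [pre_apply, Pi.single_apply]
    have : (Quotient.out x)⁻¹ • y = x₀ ↔ y = x := by
      rw [inv_smul_eq_iff, hx₀, MulAction.Quotient.smul_mk, smul_eq_mul, mul_one,
        QuotientGroup.out_eq']
    simp only [this]
  rw [hx]
  exact pre_sub_mem s u hgen _ _

/-- The sum functional. -/
noncomputable def sumL [Fintype (G ⧸ Γ)] : ((G ⧸ Γ) → ℂ) →ₗ[ℂ] ℂ :=
  ∑ x, LinearMap.proj x

lemma sumL_apply [Fintype (G ⧸ Γ)] (v : (G ⧸ Γ) → ℂ) : sumL v = ∑ x, v x := by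
  simp [sumL, LinearMap.sum_apply]

/-- The relation map `(v₁, v₂, v₃) ↦ (s-1)v₁ - (u-1)v₂ + (t-1)v₃`. -/
noncomputable def Xi (s u : G) :
    (((G ⧸ Γ) → ℂ) × ((G ⧸ Γ) → ℂ) × ((G ⧸ Γ) → ℂ)) →ₗ[ℂ] ((G ⧸ Γ) → ℂ) where
  toFun d := (pre s d.1 - d.1) - (pre u d.2.1 - d.2.1) + (pre (s⁻¹ * u) d.2.2 - d.2.2)
  map_add' a b := by
    simp only [Prod.fst_add, Prod.snd_add, map_add]; abel
  map_smul' c a := by
    simp only [Prod.smul_fst, Prod.smul_snd, map_smul, RingHom.id_apply, smul_add, smul_sub]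

lemma finrank_ker_Xi_le [Fintype (G ⧸ Γ)] (s u : G) (hgen : Subgroup.closure {s, u} = ⊤) :
    finrank ℂ (LinearMap.ker (Xi (Γ := Γ) s u)) ≤ 2 * Fintype.card (G ⧸ Γ) + 1 := by
  have h1 : LinearMap.ker (sumL (Γ := Γ)) ≤ LinearMap.range (Xi (Γ := Γ) s u) := by
    intro v hv
    have hv' : ∑ x, v x = 0 := by rw [← sumL_apply]; exact hv
    have := mem_sup_of_sum_eq_zero s u hgen v hv'
    obtain ⟨a, ⟨a', rfl⟩, b, ⟨b', rfl⟩, rfl⟩ := Submodule.mem_sup.mp this
    refine ⟨(a', -b', 0), ?_⟩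
    simp only [Xi, LinearMap.coe_mk, AddHom.coe_mk, map_neg, map_zero, sub_self, add_zero,
      LinearMap.sub_apply, Module.End.one_apply]
    abel
  have h2 := LinearMap.finrank_range_add_finrank_ker (sumL (Γ := Γ))
  have h3 : finrank ℂ (LinearMap.range (sumL (Γ := Γ))) ≤ 1 := by
    have := Submodule.finrank_le (LinearMap.range (sumL (Γ := Γ)))
    simpa using this
  have h4 : finrank ℂ ((G ⧸ Γ) → ℂ) = Fintype.card (G ⧸ Γ) := Module.finrank_fintype_fun_eq_card ℂ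
  have h5 := Submodule.finrank_mono h1
  have h6 := LinearMap.finrank_range_add_finrank_ker (Xi (Γ := Γ) s u)
  have h7 : finrank ℂ (((G ⧸ Γ) → ℂ) × ((G ⧸ Γ) → ℂ) × ((G ⧸ Γ) → ℂ))
      = 3 * Fintype.card (G ⧸ Γ) := by
    rw [Module.finrank_prod, Module.finrank_prod, h4]; ring
  omega

end Count


section Main

variable {G : Type*} [Group G] {Γ : Subgroup G}

/-- The comparison map `P × V^s × V^u × V^t × V → V³` landing in `ker Xi`. -/
noncomputable def Jmap (s u : G) (ht : ℕ) (P : Submodule ℂ (Additive Γ →+ ℂ)) :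
    (P × fixSub (Γ := Γ) s × fixSub (Γ := Γ) u × fixSub (Γ := Γ) (s⁻¹ * u) × ((G ⧸ Γ) → ℂ))
      →ₗ[ℂ] (((G ⧸ Γ) → ℂ) × ((G ⧸ Γ) → ℂ) × ((G ⧸ Γ) → ℂ)) where
  toFun d :=
    (sec (pre s) 2 (cocyc (d.1 : Additive Γ →+ ℂ) s) + d.2.2.2.2 + (d.2.1 : (G ⧸ Γ) → ℂ),
     sec (pre u) 3 (cocyc (d.1 : Additive Γ →+ ℂ) u) + d.2.2.2.2 + (d.2.2.1 : (G ⧸ Γ) → ℂ),
     sec (pre (s⁻¹ * u)) ht (cocyc (d.1 : Additive Γ →+ ℂ) (s⁻¹ * u))
       + cocyc (d.1 : Additive Γ →+ ℂ) s + pre s d.2.2.2.2 + (d.2.2.2.1 : (G ⧸ Γ) → ℂ))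
  map_add' a b := by
    simp only [Prod.fst_add, Prod.snd_add, Submodule.coe_add, cocyc_add, map_add,
      Prod.mk_add_mk]
    refine Prod.ext ?_ (Prod.ext ?_ ?_) <;> dsimp only <;> abel
  map_smul' c a := by
    simp only [Prod.smul_fst, Prod.smul_snd, Submodule.coe_smul, cocyc_smul, map_smul,
      RingHom.id_apply, Prod.smul_mk, smul_add]

variable (s u : G) (ht : ℕ) (P : Submodule ℂ (Additive Γ →+ ℂ))

lemma Xi_Jmap (hht : 0 < ht)
    (hs : ∀ φ ∈ P, cocyc φ (s ^ 2) = 0) (hu : ∀ φ ∈ P, cocyc φ (u ^ 3) = 0)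
    (htt : ∀ φ ∈ P, cocyc φ ((s⁻¹ * u) ^ ht) = 0)
    (d : P × fixSub (Γ := Γ) s × fixSub (Γ := Γ) u × fixSub (Γ := Γ) (s⁻¹ * u) × ((G ⧸ Γ) → ℂ)) :
    Xi s u (Jmap s u ht P d) = 0 := by
  obtain ⟨⟨φ, hφ⟩, ⟨i₁, h₁⟩, ⟨i₂, h₂⟩, ⟨i₃, h₃⟩, v⟩ := d
  have e1 : pre s (sec (pre s) 2 (cocyc φ s)) = cocyc φ s + sec (pre s) 2 (cocyc φ s) :=
    eq_add_of_sub_eq (sub_one_sec _ 2 (by norm_num) _ (by rw [← cocyc_pow]; exact hs φ hφ))
  have e2 : pre u (sec (pre u) 3 (cocyc φ u)) = cocyc φ u + sec (pre u) 3 (cocyc φ u) :=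
    eq_add_of_sub_eq (sub_one_sec _ 3 (by norm_num) _ (by rw [← cocyc_pow]; exact hu φ hφ))
  have e3 : pre (s⁻¹ * u) (sec (pre (s⁻¹ * u)) ht (cocyc φ (s⁻¹ * u)))
      = cocyc φ (s⁻¹ * u) + sec (pre (s⁻¹ * u)) ht (cocyc φ (s⁻¹ * u)) :=
    eq_add_of_sub_eq (sub_one_sec _ ht hht _ (by rw [← cocyc_pow]; exact htt φ hφ))
  have e4 : cocyc φ (s⁻¹ * u) = cocyc φ u - pre (s⁻¹ * u) (cocyc φ s) := by
    rw [cocyc_mul, cocyc_inv, map_neg, ← pre_mul]; abel
  have e5 : pre (Γ := Γ) (s⁻¹ * u) (pre s v) = pre u v := by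
    rw [← pre_mul, mul_inv_cancel_left]
  have h₁' : pre s i₁ = i₁ := mem_fixSub.mp h₁
  have h₂' : pre u i₂ = i₂ := mem_fixSub.mp h₂
  have h₃' : pre (s⁻¹ * u) i₃ = i₃ := mem_fixSub.mp h₃
  simp only [Xi, Jmap, LinearMap.coe_mk, AddHom.coe_mk, map_add, h₁', h₂', h₃', e1, e2, e3, e5]
  rw [e4]
  abel

lemma finrank_ker_Jmap_le [Finite (G ⧸ Γ)] (hgen : Subgroup.closure {s, u} = ⊤)
    (hs : ∀ φ ∈ P, cocyc φ (s ^ 2) = 0) (hu : ∀ φ ∈ P, cocyc φ (u ^ 3) = 0) :
    finrank ℂ (LinearMap.ker (Jmap s u ht P)) ≤ 1 := by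
  set x₀ : G ⧸ Γ := ((1 : G) : G ⧸ Γ) with hx₀
  let ev : LinearMap.ker (Jmap s u ht P) →ₗ[ℂ] ℂ :=
    { toFun := fun d => d.1.2.2.2.2 x₀
      map_add' := fun _ _ => rfl
      map_smul' := fun _ _ => rfl }
  have hinj : Function.Injective ev := by
    rw [injective_iff_map_eq_zero]
    rintro ⟨⟨⟨φ, hφ⟩, ⟨i₁, h₁⟩, ⟨i₂, h₂⟩, ⟨i₃, h₃⟩, v⟩, hd⟩ hev
    have hev' : v x₀ = 0 := hev
    have hd' := LinearMap.mem_ker.mp hd
    simp only [Jmap, LinearMap.coe_mk, AddHom.coe_mk, Prod.mk_eq_zero] at hd'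
    obtain ⟨c1, c2, c3⟩ := hd'
    have e1 : pre s (sec (pre s) 2 (cocyc φ s)) = cocyc φ s + sec (pre s) 2 (cocyc φ s) :=
      eq_add_of_sub_eq (sub_one_sec _ 2 (by norm_num) _ (by rw [← cocyc_pow]; exact hs φ hφ))
    have e2 : pre u (sec (pre u) 3 (cocyc φ u)) = cocyc φ u + sec (pre u) 3 (cocyc φ u) :=
      eq_add_of_sub_eq (sub_one_sec _ 3 (by norm_num) _ (by rw [← cocyc_pow]; exact hu φ hφ))
    have h₁' : pre s i₁ = i₁ := mem_fixSub.mp h₁
    have h₂' : pre u i₂ = i₂ := mem_fixSub.mp h₂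
    have k1 : cocyc φ s + (pre s v - v) = 0 := by
      have := congrArg (pre (Γ := Γ) s) c1
      rw [map_add, map_add, map_zero, e1, h₁'] at this
      have h := sub_eq_zero.mpr (this.trans c1.symm)
      rw [← h]; abel
    have k2 : cocyc φ u + (pre u v - v) = 0 := by
      have := congrArg (pre (Γ := Γ) u) c2
      rw [map_add, map_add, map_zero, e2, h₂'] at this
      have h := sub_eq_zero.mpr (this.trans c2.symm)
      rw [← h]; abel
    obtain ⟨hφ0, hv⟩ := eq_zero_of_cocyc_add s u hgen φ v k1 k2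
    have hv0 : v = 0 := by
      funext x
      have := congrFun (hv (Quotient.out x)) x₀
      rw [pre_apply, hx₀, MulAction.Quotient.smul_mk, smul_eq_mul, mul_one,
        QuotientGroup.out_eq'] at this
      rw [this]; exact hev'
    subst hφ0 hv0
    simp only [cocyc_zero, map_zero, zero_add, add_zero] at c1 c2 c3
    subst c1 c2 c3
    rfl
  have := LinearMap.finrank_le_finrank_of_injective hinj
  simpa using this

/-- **Abstract Euler-characteristic bound.** -/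
theorem finrank_add_le [Finite (G ⧸ Γ)] (hgen : Subgroup.closure {s, u} = ⊤) (hht : 0 < ht)
    (hs : ∀ φ ∈ P, cocyc φ (s ^ 2) = 0) (hu : ∀ φ ∈ P, cocyc φ (u ^ 3) = 0)
    (htt : ∀ φ ∈ P, cocyc φ ((s⁻¹ * u) ^ ht) = 0) :
    Module.Finite ℂ P ∧
      finrank ℂ P + finrank ℂ (fixSub (Γ := Γ) s) + finrank ℂ (fixSub (Γ := Γ) u)
        + finrank ℂ (fixSub (Γ := Γ) (s⁻¹ * u)) ≤ Nat.card (G ⧸ Γ) + 2 := by
  have := Fintype.ofFinite (G ⧸ Γ)
  have hfin : Module.Finite ℂ (Additive Γ →+ ℂ) := by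
    refine Module.Finite.of_injective (LinearMap.prod (cocycL (Γ := Γ) s) (cocycL (Γ := Γ) u)) ?_
    rw [injective_iff_map_eq_zero]
    intro φ hφ
    have hφ1 : cocyc φ s = 0 := congrArg Prod.fst hφ
    have hφ2 : cocyc φ u = 0 := congrArg Prod.snd hφ
    exact (eq_zero_of_cocyc_add s u hgen φ 0 (by simp [hφ1]) (by simp [hφ2])).1
  refine ⟨inferInstance, ?_⟩
  have h1 := LinearMap.finrank_range_add_finrank_ker (Jmap s u ht P)
  have h2 : LinearMap.range (Jmap s u ht P) ≤ LinearMap.ker (Xi (Γ := Γ) s u) := by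
    rintro _ ⟨d, rfl⟩
    exact LinearMap.mem_ker.mpr (Xi_Jmap s u ht P hht hs hu htt d)
  have h3 := Submodule.finrank_mono h2
  have h4 := finrank_ker_Xi_le (Γ := Γ) s u hgen
  have h5 := finrank_ker_Jmap_le s u ht P hgen hs hu
  have h6 : finrank ℂ ((G ⧸ Γ) → ℂ) = Fintype.card (G ⧸ Γ) := Module.finrank_fintype_fun_eq_card ℂ
  have h7 : finrank ℂ (P × fixSub (Γ := Γ) s × fixSub (Γ := Γ) u × fixSub (Γ := Γ) (s⁻¹ * u)
      × ((G ⧸ Γ) → ℂ)) = finrank ℂ P + (finrank ℂ (fixSub (Γ := Γ) s)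
        + (finrank ℂ (fixSub (Γ := Γ) u) + (finrank ℂ (fixSub (Γ := Γ) (s⁻¹ * u))
          + Fintype.card (G ⧸ Γ)))) := by
    rw [Module.finrank_prod, Module.finrank_prod, Module.finrank_prod, Module.finrank_prod, h6]
  rw [Nat.card_eq_fintype_card]
  omega

/-- Variant with group-theoretic hypotheses: `z` central of order `≤ 2` in `Γ`, `s² = u³ = z`,
and `P` kills every element of `Γ` conjugate to a power of `t = s⁻¹ u`. -/
theorem finrank_add_le' [Finite (G ⧸ Γ)] (z : G) (hgen : Subgroup.closure {s, u} = ⊤)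
    (hz : ∀ g : G, g * z = z * g) (hzΓ : z ∈ Γ) (hzz : z * z = 1) (hsz : s ^ 2 = z)
    (huz : u ^ 3 = z)
    (hP : ∀ φ ∈ P, ∀ (g : G) (n : ℕ) (h : g⁻¹ * (s⁻¹ * u) ^ n * g ∈ Γ),
      φ (Additive.ofMul (⟨g⁻¹ * (s⁻¹ * u) ^ n * g, h⟩ : Γ)) = 0) :
    Module.Finite ℂ P ∧
      finrank ℂ P + finrank ℂ (fixSub (Γ := Γ) s) + finrank ℂ (fixSub (Γ := Γ) u)
        + finrank ℂ (fixSub (Γ := Γ) (s⁻¹ * u)) ≤ Nat.card (G ⧸ Γ) + 2 := by
  have := Fintype.ofFinite (G ⧸ Γ)
  classical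
  have hcz : ∀ φ : Additive Γ →+ ℂ, cocyc φ z = 0 := by
    intro φ
    funext x
    have hzx : z • x = x := by
      obtain ⟨g, rfl⟩ := QuotientGroup.mk_surjective x
      rw [MulAction.Quotient.smul_mk, smul_eq_mul]
      exact QuotientGroup.eq.mpr (by rw [← hz, mul_inv_rev, inv_mul_cancel_right]; exact Γ.inv_mem hzΓ)
    have hk : kap Γ z x = ⟨z, hzΓ⟩ := by
      apply Subtype.ext
      simp only [kap, hzx]
      rw [mul_assoc, ← hz, inv_mul_cancel_left]
    have h2 : φ (Additive.ofMul (⟨z, hzΓ⟩ : Γ)) + φ (Additive.ofMul (⟨z, hzΓ⟩ : Γ)) = 0 := by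
      rw [← map_add, ← ofMul_mul]
      have : (⟨z, hzΓ⟩ : Γ) * ⟨z, hzΓ⟩ = 1 := Subtype.ext hzz
      rw [this]; simp
    have h3 : φ (Additive.ofMul (⟨z, hzΓ⟩ : Γ)) = 0 := by
      have : (2 : ℂ) * φ (Additive.ofMul (⟨z, hzΓ⟩ : Γ)) = 0 := by rw [two_mul]; exact h2
      simpa using this
    simp only [cocyc, hk, h3, Pi.zero_apply]
  set h : ℕ := Fintype.card (Equiv.Perm (G ⧸ Γ)) with hh
  have hh0 : 0 < h := Fintype.card_pos
  have hth : ∀ x : G ⧸ Γ, (s⁻¹ * u) ^ h • x = x := by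
    intro x
    have h1 : (MulAction.toPermHom G (G ⧸ Γ) (s⁻¹ * u)) ^ h = 1 := pow_card_eq_one
    have h2 : MulAction.toPermHom G (G ⧸ Γ) ((s⁻¹ * u) ^ h) = 1 := by rw [map_pow, h1]
    have h3 := congrArg (fun σ : Equiv.Perm (G ⧸ Γ) => σ x) h2
    simpa using h3
  refine finrank_add_le s u h P hgen hh0 (fun φ _ => by rw [hsz]; exact hcz φ)
    (fun φ _ => by rw [huz]; exact hcz φ) ?_
  intro φ hφ
  funext x
  have hk : kap Γ ((s⁻¹ * u) ^ h) x
      = ⟨(Quotient.out x)⁻¹ * (s⁻¹ * u) ^ h * Quotient.out x, by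
          have := (kap Γ ((s⁻¹ * u) ^ h) x).2
          simpa only [kap, hth x] using this⟩ := by
    apply Subtype.ext
    simp only [kap, hth x]
  simp only [cocyc, hk, Pi.zero_apply]
  exact hP φ hφ _ _ _

end Main

section Orbits

variable {G : Type*} [Group G] {Γ : Subgroup G}

/-- The subgroup of elements under which `v` is invariant. -/
def stabSub (v : (G ⧸ Γ) → ℂ) : Subgroup G where
  carrier := {k | ∀ x, v (k • x) = v x}
  one_mem' := by intro x; simp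
  mul_mem' := by intro a b ha hb x; rw [mul_smul, ha, hb]
  inv_mem' := by
    intro a ha x
    have := ha (a⁻¹ • x)
    rw [smul_inv_smul] at this
    exact this.symm

/-- `dim V^g` is the number of orbits of `⟨g⟩` on `G ⧸ Γ`. -/
theorem finrank_fixSub [Finite (G ⧸ Γ)] (g : G) :
    finrank ℂ (fixSub (Γ := Γ) g)
      = Nat.card (MulAction.orbitRel.Quotient (Subgroup.zpowers g) (G ⧸ Γ)) := by
  classical
  have := Fintype.ofFinite (G ⧸ Γ)
  set Q := MulAction.orbitRel.Quotient (Subgroup.zpowers g) (G ⧸ Γ) with hQ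
  have := Fintype.ofFinite Q
  let mk : (G ⧸ Γ) → Q := Quotient.mk''
  have hmk : Function.Surjective mk := Quotient.mk''_surjective
  have hinj : Function.Injective (LinearMap.funLeft ℂ ℂ mk) :=
    LinearMap.funLeft_injective_of_surjective ℂ ℂ mk hmk
  have hrange : LinearMap.range (LinearMap.funLeft ℂ ℂ mk) = fixSub (Γ := Γ) g := by
    ext v
    rw [mem_fixSub]
    constructor
    · rintro ⟨f, rfl⟩
      funext x
      simp only [pre_apply, LinearMap.funLeft_apply]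
      congr 1
      exact Quotient.sound' ⟨⟨g, Subgroup.mem_zpowers g⟩, rfl⟩
    · intro hv
      have hstab : Subgroup.zpowers g ≤ stabSub (Γ := Γ) v :=
        Subgroup.zpowers_le.mpr fun x => congrFun hv x
      refine ⟨Quotient.lift v ?_, ?_⟩
      · rintro a b ⟨⟨k, hk⟩, rfl⟩
        exact hstab hk b
      · funext x
        rfl
  rw [← hrange, LinearMap.finrank_range_of_inj hinj, Module.finrank_fintype_fun_eq_card,
    Nat.card_eq_fintype_card]

end Orbits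

end Fermat.Agent.S21.H25
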