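import Mathlib

/-!
# Orbit counts for elements acting with order dividing 2 or 3 (helper25, S21 B')

Burnside's lemma for the cyclic group generated by one permutation.
-/

set_option autoImplicit false

namespace Fermat.Agent.S21.H25

open MulAction

/-- Burnside's lemma for the cyclic group generated by a permutation. -/
lemma burnside_perm {X : Type*} [Finite X] (σ : Equiv.Perm X) :
    ∑ i ∈ Finset.range (orderOf σ), Nat.card (fixedBy X (σ ^ i))
      = Nat.card (orbitRel.Quotient (Subgroup.zpowers σ) X) * orderOf σ := by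
  classical
  have := Fintype.ofFinite X
  have : Fintype (Subgroup.zpowers σ) := Fintype.ofFinite _
  have : Fintype (orbitRel.Quotient (Subgroup.zpowers σ) X) := Fintype.ofFinite _
  have hB := sum_card_fixedBy_eq_card_orbits_mul_card_group (Subgroup.zpowers σ) X
  have hσ : IsOfFinOrder σ := isOfFinOrder_of_finite σ
  calc ∑ i ∈ Finset.range (orderOf σ), Nat.card (fixedBy X (σ ^ i))
      = ∑ n : Fin (orderOf σ), Nat.card (fixedBy X (σ ^ (n : ℕ))) :=
        (Fin.sum_univ_eq_sum_range (fun i => Nat.card (fixedBy X (σ ^ i))) (orderOf σ)).symm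
    _ = ∑ n : Fin (orderOf σ), Fintype.card (fixedBy X (finEquivZPowers hσ n)) := by
        refine Finset.sum_congr rfl fun n _ => ?_
        rw [Nat.card_eq_fintype_card]
        rfl
    _ = ∑ a : Subgroup.zpowers σ, Fintype.card (fixedBy X a) :=
        (finEquivZPowers hσ).sum_comp (fun a => Fintype.card (fixedBy X a))
    _ = Fintype.card (orbitRel.Quotient (Subgroup.zpowers σ) X)
          * Fintype.card (Subgroup.zpowers σ) := hB
    _ = Nat.card (orbitRel.Quotient (Subgroup.zpowers σ) X) * orderOf σ := by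
        rw [Nat.card_eq_fintype_card, ← Nat.card_zpowers σ,
          Nat.card_eq_fintype_card (α := Subgroup.zpowers σ)]

section Action

variable {G X : Type*} [Group G] [MulAction G X]

lemma toPerm_pow_apply (g : G) (n : ℕ) (x : X) : (MulAction.toPerm g ^ n : Equiv.Perm X) x = g ^ n • x := by
  induction n generalizing x with
  | zero => simp
  | succ n ih => rw [pow_succ, Equiv.Perm.mul_apply, ih, pow_succ, mul_smul]; rfl

lemma toPerm_zpow_apply (g : G) (n : ℤ) (x : X) :
    (MulAction.toPerm g ^ n : Equiv.Perm X) x = g ^ n • x := by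
  have h : (MulAction.toPermHom G X g) ^ n = MulAction.toPermHom G X (g ^ n) := (map_zpow _ g n).symm
  exact congrArg (fun σ : Equiv.Perm X => σ x) h

/-- The orbits of `⟨g⟩` and of the cyclic group generated by the permutation of `g` agree. -/
lemma card_orbits_toPerm (g : G) :
    Nat.card (orbitRel.Quotient (Subgroup.zpowers (MulAction.toPerm g : Equiv.Perm X)) X)
      = Nat.card (orbitRel.Quotient (Subgroup.zpowers g) X) := by
  refine Nat.card_congr (Quotient.congrRight fun a b => ?_)
  constructor
  · rintro ⟨⟨k, n, rfl⟩, rfl⟩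
    refine ⟨⟨g ^ n, n, rfl⟩, ?_⟩
    exact (toPerm_zpow_apply g n b).symm
  · rintro ⟨⟨k, n, rfl⟩, rfl⟩
    refine ⟨⟨MulAction.toPerm g ^ n, n, rfl⟩, ?_⟩
    exact toPerm_zpow_apply g n b

lemma fixedBy_toPerm (g : G) : fixedBy X (MulAction.toPerm g : Equiv.Perm X) = fixedBy X g := rfl

/-- If `g²` acts trivially then `2 · #orbits = |X| + #Fix(g)`. -/
theorem two_mul_card_orbits [Finite X] (g : G) (hg : ∀ x : X, g • g • x = x) :
    2 * Nat.card (orbitRel.Quotient (Subgroup.zpowers g) X)
      = Nat.card X + Nat.card (fixedBy X g) := by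
  classical
  set σ : Equiv.Perm X := MulAction.toPerm g with hσ
  have hσ2 : σ ^ 2 = 1 := by
    ext x
    rw [toPerm_pow_apply, pow_two, mul_smul]
    exact hg x
  have hB := burnside_perm σ
  rw [card_orbits_toPerm] at hB
  have hfix0 : Nat.card (fixedBy X (σ ^ 0)) = Nat.card X := by
    rw [pow_zero, fixedBy_one_eq_univ]
    exact Nat.card_congr (Equiv.Set.univ X)
  have hdvd : orderOf σ ∣ 2 := orderOf_dvd_of_pow_eq_one hσ2
  rcases (Nat.dvd_prime Nat.prime_two).mp hdvd with h1 | h2
  · rw [h1, Finset.sum_range_one, hfix0, mul_one] at hB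
    have hσ1 : σ = 1 := orderOf_eq_one_iff.mp h1
    have : fixedBy X g = Set.univ := by
      rw [← fixedBy_toPerm, ← hσ, hσ1, fixedBy_one_eq_univ]
    rw [this, Nat.card_congr (Equiv.Set.univ X), ← hB]
    ring
  · rw [h2, Finset.sum_range_succ, Finset.sum_range_one, hfix0, pow_one, hσ, fixedBy_toPerm] at hB
    omega

/-- If `g³` acts trivially then `3 · #orbits = |X| + 2 · #Fix(g)`. -/
theorem three_mul_card_orbits [Finite X] (g : G) (hg : ∀ x : X, g • g • g • x = x) :
    3 * Nat.card (orbitRel.Quotient (Subgroup.zpowers g) X)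
      = Nat.card X + 2 * Nat.card (fixedBy X g) := by
  classical
  set σ : Equiv.Perm X := MulAction.toPerm g with hσ
  have hσ3 : σ ^ 3 = 1 := by
    ext x
    rw [toPerm_pow_apply, pow_succ, pow_two, mul_smul, mul_smul]
    exact hg x
  have hB := burnside_perm σ
  rw [card_orbits_toPerm] at hB
  have hfix0 : Nat.card (fixedBy X (σ ^ 0)) = Nat.card X := by
    rw [pow_zero, fixedBy_one_eq_univ]
    exact Nat.card_congr (Equiv.Set.univ X)
  have hfix2 : fixedBy X (σ ^ 2) = fixedBy X g := by
    ext x
    simp only [mem_fixedBy, Equiv.Perm.smul_def]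
    rw [toPerm_pow_apply, pow_two, mul_smul]
    constructor
    · intro h
      have h3 := hg x
      rw [h] at h3
      exact h3
    · intro h
      rw [h, h]
  have hdvd : orderOf σ ∣ 3 := orderOf_dvd_of_pow_eq_one hσ3
  rcases (Nat.dvd_prime Nat.prime_three).mp hdvd with h1 | h3
  · rw [h1, Finset.sum_range_one, hfix0, mul_one] at hB
    have hσ1 : σ = 1 := orderOf_eq_one_iff.mp h1
    have : fixedBy X g = Set.univ := by
      rw [← fixedBy_toPerm, ← hσ, hσ1, fixedBy_one_eq_univ]
    rw [this, Nat.card_congr (Equiv.Set.univ X), ← hB]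
    ring
  · rw [h3, Finset.sum_range_succ, Finset.sum_range_succ, Finset.sum_range_one, hfix0, pow_one,
      hfix2, hσ, fixedBy_toPerm] at hB
    omega

end Action

end Fermat.Agent.S21.H25
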