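import Fermat.Agent.S21.H25.ParabolicBound
import Fermat.Agent.S21.H25.OrbitCount
import Fermat.Prelude.Def_ModularCurve_GenusNumerics

/-!
# `dim H¹_par(Γ₀(N), ℂ) ≤ 2 · genus` from the coset combinatorics (helper25, S21 B')
-/

set_option autoImplicit false

namespace Fermat.Agent.S21.H25

open Module CongruenceSubgroup ModularGroup ModularCurve.Period Matrix
open scoped MatrixGroups

lemma neg_one_smul_quot (N : ℕ) (x : SL(2, ℤ) ⧸ Gamma0 N) : (-1 : SL(2, ℤ)) • x = x := by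
  obtain ⟨g, rfl⟩ := QuotientGroup.mk_surjective x
  rw [MulAction.Quotient.smul_mk, smul_eq_mul]
  refine (QuotientGroup.eq.mpr ?_).symm
  rw [neg_mul, one_mul, mul_neg, inv_mul_cancel]
  exact neg_one_mem_Gamma0 N

/-- `2 · #orb(S) = μ + #Fix(S)` on `SL(2, ℤ) ⧸ Γ₀(N)`. -/
theorem two_mul_card_orbits_S (N : ℕ) [NeZero N] :
    2 * Nat.card (MulAction.orbitRel.Quotient (Subgroup.zpowers (S : SL(2, ℤ)))
        (SL(2, ℤ) ⧸ Gamma0 N))
      = Nat.card (SL(2, ℤ) ⧸ Gamma0 N)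
        + Nat.card (MulAction.fixedBy (SL(2, ℤ) ⧸ Gamma0 N) (S : SL(2, ℤ))) := by
  have hfin : Finite (SL(2, ℤ) ⧸ Gamma0 N) := Subgroup.finite_quotient_of_finiteIndex
  refine two_mul_card_orbits (S : SL(2, ℤ)) fun x => ?_
  rw [← mul_smul, ← pow_two, S_sq, neg_one_smul_quot]

/-- `3 · #orb(ST) = μ + 2 · #Fix(ST)` on `SL(2, ℤ) ⧸ Γ₀(N)`. -/
theorem three_mul_card_orbits_ST (N : ℕ) [NeZero N] :
    3 * Nat.card (MulAction.orbitRel.Quotient (Subgroup.zpowers ((S : SL(2, ℤ)) * T))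
        (SL(2, ℤ) ⧸ Gamma0 N))
      = Nat.card (SL(2, ℤ) ⧸ Gamma0 N)
        + 2 * Nat.card (MulAction.fixedBy (SL(2, ℤ) ⧸ Gamma0 N) ((S : SL(2, ℤ)) * T)) := by
  have hfin : Finite (SL(2, ℤ) ⧸ Gamma0 N) := Subgroup.finite_quotient_of_finiteIndex
  refine three_mul_card_orbits ((S : SL(2, ℤ)) * T) fun x => ?_
  have h3 : ((S : SL(2, ℤ)) * T) * (S * T) * (S * T) = (S * T) ^ 3 := by
    rw [pow_succ, pow_two]
  rw [← mul_smul, ← mul_smul, h3, ST_cube, neg_one_smul_quot]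

/-- **Package B', fixed-point form**:
`6 · dim H¹_par + 3 · #Fix(S) + 4 · #Fix(ST) + 6 · #orb(T) ≤ μ + 12`. -/
theorem parabolicHoms_bound_fixed (N : ℕ) [NeZero N] :
    6 * finrank ℂ (parabolicHoms ℂ (Gamma0 N) ℂ)
        + 3 * Nat.card (MulAction.fixedBy (SL(2, ℤ) ⧸ Gamma0 N) (S : SL(2, ℤ)))
        + 4 * Nat.card (MulAction.fixedBy (SL(2, ℤ) ⧸ Gamma0 N) ((S : SL(2, ℤ)) * T))
        + 6 * Nat.card (MulAction.orbitRel.Quotient (Subgroup.zpowers (T : SL(2, ℤ)))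
            (SL(2, ℤ) ⧸ Gamma0 N))
      ≤ Nat.card (SL(2, ℤ) ⧸ Gamma0 N) + 12 := by
  have h := (parabolicHoms_bound N).2
  have h2 := two_mul_card_orbits_S N
  have h3 := three_mul_card_orbits_ST N
  omega

/-- **Package B', genus form** (takes the coset combinatorics of `X₀(N)` as hypotheses):
`dim H¹_par(Γ₀(N), ℂ) ≤ 2 · genusFormula N`. -/
theorem finrank_parabolicHoms_le (N : ℕ) [NeZero N]
    (hμ : Nat.card (SL(2, ℤ) ⧸ Gamma0 N) = ModularCurve.dedekindPsi N)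
    (h2 : Nat.card (MulAction.fixedBy (SL(2, ℤ) ⧸ Gamma0 N) (S : SL(2, ℤ)))
      = ModularCurve.nuTwo N)
    (h3 : Nat.card (MulAction.fixedBy (SL(2, ℤ) ⧸ Gamma0 N) ((S : SL(2, ℤ)) * T))
      = ModularCurve.nuThree N)
    (hc : Nat.card (MulAction.orbitRel.Quotient (Subgroup.zpowers (T : SL(2, ℤ)))
        (SL(2, ℤ) ⧸ Gamma0 N)) = ModularCurve.cuspCount N) :
    (finrank ℂ (parabolicHoms ℂ (Gamma0 N) ℂ) : ℚ) ≤ 2 * ModularCurve.genusFormula N := by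
  have h := parabolicHoms_bound_fixed N
  rw [hμ, h2, h3, hc] at h
  have hq : (6 * finrank ℂ (parabolicHoms ℂ (Gamma0 N) ℂ) + 3 * ModularCurve.nuTwo N
      + 4 * ModularCurve.nuThree N + 6 * ModularCurve.cuspCount N : ℚ)
      ≤ (ModularCurve.dedekindPsi N : ℚ) + 12 := by exact_mod_cast h
  rw [ModularCurve.genusFormula]
  linarith

end Fermat.Agent.S21.H25
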