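import Fermat.Agent.S21.H25.Abstract
import Fermat.Prelude.Def_ModularCurve_PeriodMap

/-!
# The Euler-characteristic bound for parabolic homomorphisms of `Γ₀(N)` (helper25, S21 B')
-/

set_option autoImplicit false

namespace Fermat.Agent.S21.H25

open Module CongruenceSubgroup ModularGroup ModularCurve.Period Matrix
open scoped MatrixGroups

lemma S_sq : (S : SL(2, ℤ)) ^ 2 = -1 := by
  apply Subtype.ext
  rw [pow_two, Matrix.SpecialLinearGroup.coe_mul, S_mul_S_eq]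
  simp

lemma ST_cube : ((S : SL(2, ℤ)) * T) ^ 3 = -1 := by
  apply Subtype.ext
  rw [pow_succ, pow_two]
  simp only [Matrix.SpecialLinearGroup.coe_mul, coe_S, coe_T, Matrix.SpecialLinearGroup.coe_neg,
    Matrix.SpecialLinearGroup.coe_one]
  ext i j
  fin_cases i <;> fin_cases j <;> simp [Matrix.mul_apply, Fin.sum_univ_two]

lemma closure_S_ST : Subgroup.closure {(S : SL(2, ℤ)), S * T} = ⊤ := by
  rw [eq_top_iff, ← SpecialLinearGroup.SL2Z_generators, Subgroup.closure_le]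
  rintro x (rfl | rfl)
  · exact Subgroup.subset_closure (by simp)
  · have h1 : (S : SL(2, ℤ)) ∈ Subgroup.closure {(S : SL(2, ℤ)), S * T} :=
      Subgroup.subset_closure (by simp)
    have h2 : (S : SL(2, ℤ)) * T ∈ Subgroup.closure {(S : SL(2, ℤ)), S * T} :=
      Subgroup.subset_closure (by simp)
    have := Subgroup.mul_mem _ (Subgroup.inv_mem _ h1) h2
    rwa [inv_mul_cancel_left] at this

lemma neg_one_mem_Gamma0 (N : ℕ) : (-1 : SL(2, ℤ)) ∈ Gamma0 N := by
  rw [Gamma0_mem]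
  simp

lemma trace_conj_T_pow (g : SL(2, ℤ)) (n : ℕ) :
    ((g⁻¹ * T ^ n * g : SL(2, ℤ)) : Matrix (Fin 2) (Fin 2) ℤ).trace = 2 := by
  rw [Matrix.SpecialLinearGroup.coe_mul, Matrix.trace_mul_comm, Matrix.SpecialLinearGroup.coe_mul,
    ← Matrix.mul_assoc, ← Matrix.SpecialLinearGroup.coe_mul, mul_inv_cancel, Matrix.SpecialLinearGroup.coe_one,
    Matrix.one_mul, ← zpow_natCast, coe_T_zpow]
  simp [Matrix.trace_fin_two]

/-- **Package B'**: the Euler-characteristic bound for the parabolic homomorphisms of `Γ₀(N)`,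
in terms of the invariant subspaces of `S`, `S * T` and `T` on functions on
`SL(2, ℤ) ⧸ Γ₀(N)`. -/
theorem parabolicHoms_bound_fixSub (N : ℕ) [NeZero N] :
    Module.Finite ℂ (parabolicHoms ℂ (Gamma0 N) ℂ) ∧
      finrank ℂ (parabolicHoms ℂ (Gamma0 N) ℂ)
        + finrank ℂ (fixSub (Γ := Gamma0 N) S)
        + finrank ℂ (fixSub (Γ := Gamma0 N) (S * T))
        + finrank ℂ (fixSub (Γ := Gamma0 N) T) ≤ Nat.card (SL(2, ℤ) ⧸ Gamma0 N) + 2 := by
  have hfin : Finite (SL(2, ℤ) ⧸ Gamma0 N) := Subgroup.finite_quotient_of_finiteIndex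
  have hT : (S : SL(2, ℤ))⁻¹ * (S * T) = T := inv_mul_cancel_left _ _
  have key := finrank_add_le' (Γ := Gamma0 N) S (S * T) (parabolicHoms ℂ (Gamma0 N) ℂ) (-1)
    closure_S_ST (fun g => by rw [mul_neg, neg_mul, mul_one, one_mul]) (neg_one_mem_Gamma0 N)
    (by simp) S_sq ST_cube ?_
  · rwa [hT] at key
  · intro φ hφ g n h
    rw [mem_parabolicHoms_iff] at hφ
    refine hφ _ ?_
    have : ((S : SL(2, ℤ))⁻¹ * (S * T)) ^ n = T ^ n := by rw [hT]
    simp only [this, trace_conj_T_pow]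
    norm_num

/-- **Package B'**, orbit form:
`dim H¹_par + #orb(S) + #orb(ST) + #orb(T) ≤ [SL₂(ℤ) : Γ₀(N)] + 2`. -/
theorem parabolicHoms_bound (N : ℕ) [NeZero N] :
    Module.Finite ℂ (parabolicHoms ℂ (Gamma0 N) ℂ) ∧
      finrank ℂ (parabolicHoms ℂ (Gamma0 N) ℂ)
        + Nat.card (MulAction.orbitRel.Quotient (Subgroup.zpowers (S : SL(2, ℤ)))
            (SL(2, ℤ) ⧸ Gamma0 N))
        + Nat.card (MulAction.orbitRel.Quotient (Subgroup.zpowers ((S : SL(2, ℤ)) * T))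
            (SL(2, ℤ) ⧸ Gamma0 N))
        + Nat.card (MulAction.orbitRel.Quotient (Subgroup.zpowers (T : SL(2, ℤ)))
            (SL(2, ℤ) ⧸ Gamma0 N))
        ≤ Nat.card (SL(2, ℤ) ⧸ Gamma0 N) + 2 := by
  have hfin : Finite (SL(2, ℤ) ⧸ Gamma0 N) := Subgroup.finite_quotient_of_finiteIndex
  have h := parabolicHoms_bound_fixSub N
  rw [finrank_fixSub, finrank_fixSub, finrank_fixSub] at h
  exact h

end Fermat.Agent.S21.H25
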